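import Fermat.Agent.CyclicReductions.Asymptotic

/-!
# The reductions with full `d`-torsion, every level `d`

Full `d`-torsion at a good `p ≤ N` forces `d ^ 2 ∣ p + 1 - a_p` and `d ∣ a_p - 2`, so it happens at
most `40 N √N / d ^ 3` times, against `li N / n_d` on the Riemann hypothesis, `n_d` the order of the
image of Galois on `E[d]`. Taking `N = d ^ 3` gives `∑ 1 / n_d < ∞` over all levels.
-/

set_option autoImplicit false
set_option linter.style.haveILetI false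

noncomputable section

open WeierstrassCurve FA.Frob Finset Filter FA.CyclicRed
open FA.ArtinHooley (logInt)
open FA.ReducedGroups (FullAt)
open scoped WeierstrassCurve.Affine Classical Topology

namespace FA.NearlyCyclic

variable (W : WeierstrassCurve ℤ)

/-- **What full `d`-torsion says about the trace**, for every `d`. -/
theorem level_facts {p : ℕ} [hp : Fact p.Prime] (h3 : 3 ≤ p) (hgood : W.IsGoodPrimeFor p)
    {d : ℕ} (hd : 0 < d) (hfull : FullAt W d p) :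
    d ∣ p - 1 ∧ (d : ℤ) ∣ W.apOfModel p - 2 ∧
      ∃ k : ℕ, 0 < k ∧ (d : ℤ) ^ 2 * k = p + 1 - W.apOfModel p ∧
        W.apOfModel p ^ 2 ≤ 4 * p := by
  haveI := ratCurve_isElliptic W (l := p) hgood
  haveI := FA.PointDiv.reductionMod_isElliptic W hgood
  haveI : (W.map (Int.castRingHom (ZMod p))).IsElliptic :=
    FA.PointDiv.reductionMod_isElliptic W hgood
  obtain ⟨c, hce, hcard, h1, h2, ⟨φ⟩⟩ :=
    FA.ReducedGroups.exists_equiv_zmod h3 (W.map (Int.castRingHom (ZMod p)))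
  obtain ⟨e, hedef⟩ : ∃ e,
      e = AddMonoid.exponent (W.map (Int.castRingHom (ZMod p))).toAffine.Point := ⟨_, rfl⟩
  rw [← hedef] at hce hcard
  have he0 : 0 < e := hedef ▸ Nat.pos_of_ne_zero AddMonoid.exponent_ne_zero_of_finite
  have hc0 : 0 < c := Nat.pos_of_ne_zero fun h => by
    rw [h, zero_mul] at hcard
    exact Nat.card_pos.ne hcard
  haveI : NeZero c := ⟨hc0.ne'⟩
  haveI : NeZero (AddMonoid.exponent (W.map (Int.castRingHom (ZMod p))).toAffine.Point) :=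
    ⟨hedef ▸ he0.ne'⟩
  have hdc : d ∣ c :=
    (FA.ReducedGroups.natCard_nsmul_eq_sq_iff φ (hedef ▸ hce) hd).1 hfull.2
  refine ⟨hdc.trans h1, (Int.natCast_dvd_natCast.2 hdc).trans h2, ?_⟩
  obtain ⟨b, hb⟩ := hdc.trans hce
  obtain ⟨a, ha⟩ := hdc
  refine ⟨a * b, Nat.mul_pos (Nat.pos_of_ne_zero fun h => hc0.ne' (by rw [ha, h, mul_zero]))
    (Nat.pos_of_ne_zero fun h => he0.ne' (by rw [hb, h, mul_zero])), ?_,
    FA.HasseBound.traceOfFrobenius_sq_le (W.map (Int.castRingHom (ZMod p)))⟩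
  have hc : ((d : ℤ) ^ 2 * ((a * b : ℕ) : ℤ)) =
      Nat.card (W.map (Int.castRingHom (ZMod p))).toAffine.Point := by
    rw [← hcard, ha, hb]
    push_cast
    ring
  rw [hc]
  show _ = (p : ℤ) + 1 - ((Nat.card (ZMod p) : ℤ) + 1 - _)
  rw [Nat.card_zmod, sub_sub_cancel]
  rfl

variable {W}

/-- **At most `40 N √N / d ^ 3` of them**, for every `d ≥ 1`. -/
theorem card_level_le (hΔ : W.Δ ≠ 0) {d : ℕ} (hd : 0 < d) {N : ℕ} (hN : 1 ≤ N) :
    ((fullCount W d N).card : ℝ) ≤ 40 * (N * √(N : ℝ)) / (d : ℝ) ^ 3 := by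
  obtain ⟨R, hR⟩ : ∃ R, R = √(N : ℝ) := ⟨_, rfl⟩
  obtain ⟨x, hx⟩ : ∃ x : ℝ, x = (d : ℝ) := ⟨_, rfl⟩
  have hx0 : 0 < x := hx ▸ Nat.cast_pos.2 hd
  have hR1 : 1 ≤ R := hR ▸ Real.one_le_sqrt.2 (Nat.one_le_cast.2 hN)
  have hR2 : R * R = N := hR ▸ Real.mul_self_sqrt (Nat.cast_nonneg N)
  obtain ⟨J, hJ⟩ : ∃ J, J = ⌊4 * R / x⌋₊ := ⟨_, rfl⟩
  obtain ⟨K, hK⟩ : ∃ K, K = ⌊4 * (N : ℝ) / x ^ 2⌋₊ := ⟨_, rfl⟩
  -- a prime of level `d` is given by `(a - 2) / d` and `(p + 1 - a) / d ^ 2`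
  have hmem : ∀ p ∈ fullCount W d N, ∃ (j : ℤ) (k : ℕ), j.natAbs ≤ J ∧ 1 ≤ k ∧ k ≤ K ∧
      x ≤ 2 * R ∧ (d : ℤ) * j + (d : ℤ) ^ 2 * k + 1 = p := fun p hp => by
    rw [fullCount, mem_filter, mem_Icc] at hp
    obtain ⟨⟨-, hpN⟩, hpp, hbad, hfull⟩ := hp
    haveI := Fact.mk hpp
    obtain ⟨h3, hgood⟩ := good_of_not_mem hΔ hpp hbad
    obtain ⟨-, ⟨j, hj⟩, k, hk0, hk, ha⟩ := level_facts W h3 hgood hd hfull
    have hp3 : (3 : ℝ) ≤ p := by exact_mod_cast h3
    have hpR : (p : ℝ) ≤ R * R := hR2 ▸ Nat.cast_le.2 hpN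
    have ha' : ((W.apOfModel p : ℤ) : ℝ) ^ 2 ≤ (2 * R) ^ 2 := by
      have : ((W.apOfModel p : ℤ) : ℝ) ^ 2 ≤ 4 * p := by exact_mod_cast ha
      nlinarith
    have habs := abs_le_of_sq_le_sq ha' (by linarith)
    rw [abs_le] at habs
    have hj' : ((W.apOfModel p : ℤ) : ℝ) - 2 = x * j := by
      rw [hx]
      exact_mod_cast hj
    have hk' : x ^ 2 * k = p + 1 - ((W.apOfModel p : ℤ) : ℝ) := by
      rw [hx]
      exact_mod_cast hk
    have hkN : x ^ 2 * k ≤ 4 * (N : ℝ) := by nlinarith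
    have hk1 : (1 : ℝ) ≤ k := Nat.one_le_cast.2 hk0
    refine ⟨j, k, hJ ▸ Nat.le_floor ?_, hk0, hK ▸ Nat.le_floor ?_, ?_, ?_⟩
    · rw [Nat.cast_natAbs, Int.cast_abs, le_div_iff₀ hx0, ← abs_of_pos hx0, ← abs_mul, mul_comm,
        ← hj', abs_le]
      constructor <;> linarith
    · rw [le_div_iff₀ (by positivity)]
      linarith
    · nlinarith [le_mul_of_one_le_right (sq_nonneg x) hk1]
    · rw [hk, ← hj]
      ring
  rcases (fullCount W d N).eq_empty_or_nonempty with h | ⟨p, hp⟩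
  · rw [h, card_empty, Nat.cast_zero]
    positivity
  obtain ⟨-, -, -, -, -, hxR, -⟩ := hmem p hp
  have hsub : fullCount W d N ⊆ (Icc (-(J : ℤ)) J ×ˢ Icc 1 K).image fun jk =>
      ((d : ℤ) * jk.1 + (d : ℤ) ^ 2 * (jk.2 : ℕ) + 1).toNat := fun q hq => by
    obtain ⟨j, k, hjJ, hk1, hkK, -, e⟩ := hmem q hq
    exact mem_image.2 ⟨(j, k), mem_product.2 ⟨mem_Icc.2 ⟨by omega, by omega⟩,
      mem_Icc.2 ⟨hk1, hkK⟩⟩, by rw [e, Int.toNat_natCast]⟩
  have hcard : ((fullCount W d N).card : ℝ) ≤ (2 * (J : ℝ) + 1) * K := by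
    refine (Nat.cast_le.2 ((card_le_card hsub).trans card_image_le)).trans (le_of_eq ?_)
    rw [card_product, Int.card_Icc, Nat.card_Icc, Nat.add_sub_cancel,
      show (((J : ℤ) + 1 - -(J : ℤ)).toNat) = 2 * J + 1 by omega]
    push_cast
    ring
  refine hcard.trans ?_
  have h1 : (J : ℝ) * x ≤ 4 * R := (le_div_iff₀ hx0).1 (hJ ▸ Nat.floor_le (by positivity))
  have h2 : (K : ℝ) * x ^ 2 ≤ 4 * N :=
    (le_div_iff₀ (by positivity)).1 (hK ▸ Nat.floor_le (by positivity))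
  rw [← hR, ← hx, le_div_iff₀ (by positivity)]
  calc (2 * (J : ℝ) + 1) * K * x ^ 3
      = (2 * ((J : ℝ) * x) + x) * ((K : ℝ) * x ^ 2) := by ring
    _ ≤ (10 * R) * (4 * N) := mul_le_mul (by linarith) h2 (by positivity) (by positivity)
    _ = _ := by ring

variable [(ratCurve W).IsElliptic]

/-- **The count at every level on the Riemann hypothesis.** -/
theorem exists_level_count (hΔ : W.Δ ≠ 0) (hGRH : AllFieldsRH) : ∃ B : ℝ, 0 ≤ B ∧
    ∀ d : ℕ, 0 < d → ∀ N : ℕ, 2 ≤ N →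
      |((fullCount W d N).card : ℝ) - logInt N / degree W d| ≤
        B * (1 + Real.log d) * (√(N : ℝ) * Real.log N ^ 4 + 1) := by
  obtain ⟨A, hA, h⟩ := exists_count_of_GRH
  obtain ⟨D, hD⟩ : ∃ D, D = ∑ p ∈ badPrimes W, Real.log p := ⟨_, rfl⟩
  have hD0 : 0 ≤ D := hD ▸ sum_nonneg fun p _ => Real.log_natCast_nonneg p
  refine ⟨A * (5 + D) + ((badPrimes W).card + 2), by positivity, fun d hd N hN => ?_⟩
  haveI : NeZero d := ⟨hd.ne'⟩
  obtain ⟨S, hS⟩ : ∃ S, S = d.primeFactors ∪ badPrimes W := ⟨_, rfl⟩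
  have hSd : ∀ p : ℕ, p.Prime → p ∉ S → ¬ p ∣ d ∧ p ∉ badPrimes W := fun p hp hpS => by
    rw [hS, mem_union, not_or] at hpS
    exact ⟨fun hdvd => hpS.1 (Nat.mem_primeFactors.2 ⟨hp, hdvd, hd.ne'⟩), hpS.2⟩
  have h1 := h (FA.TraceDist.glLevel W d) FA.TraceDist.isOpen_ker_glLevel hGRH S
    (fun p hp => by
      rw [hS, mem_union] at hp
      exact hp.elim Nat.prime_of_mem_primeFactors (prime_of_mem_badPrimes W))
    (fun p hp hpS B hB => inertia_le_ker_glLevel W hp (good_of_not_mem hΔ hp (hSd p hp hpS).2).2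
      (hSd p hp hpS).1 hB)
    {1} (fun g hg x => by
      rw [Set.mem_singleton_iff] at hg ⊢
      rw [hg, mul_one, mul_inv_cancel])
    (fun p => p ∉ badPrimes W ∧ FullAt W d p)
    (fun p hp hpS B hB σ hσ => by
      obtain ⟨hpd, hbad⟩ := hSd p hp hpS
      rw [Set.mem_singleton_iff, ← FA.ReducedGroups.fullAt_iff W hp
        (good_of_not_mem hΔ hp hbad).2 hpd hB hσ]
      exact and_iff_right hbad) N hN
  rw [imageShare_one, ← degree_eq, one_div_mul_eq_div] at h1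
  have hn : 0 < degree W d := degree_eq W d ▸ Nat.card_pos
  rw [one_div_mul_cancel (Nat.cast_ne_zero.2 hn.ne'), mul_one] at h1
  refine (le_of_eq_of_le (by rw [fullCount]; congr!) h1).trans ?_
  have hld : 0 ≤ Real.log d := Real.log_natCast_nonneg d
  have hln : Real.log (degree W d) ≤ 4 * Real.log d := by
    rw [show (4 : ℝ) = ((4 : ℕ) : ℝ) by norm_num, ← Real.log_pow]
    refine Real.log_le_log (Nat.cast_pos.2 hn) ?_
    rw [← Nat.cast_pow, Nat.cast_le, degree_eq]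
    exact (Subgroup.card_le_card_group _).trans (natCard_gl_le d)
  have hfac : ∑ p ∈ d.primeFactors, Real.log p ≤ Real.log d := by
    rw [← Real.log_prod fun p hp => Nat.cast_ne_zero.2 (Nat.prime_of_mem_primeFactors hp).ne_zero,
      ← Nat.cast_prod]
    exact Real.log_le_log (Nat.cast_pos.2 (prod_pos fun p hp =>
      (Nat.prime_of_mem_primeFactors hp).pos))
      (Nat.cast_le.2 (Nat.le_of_dvd hd (Nat.prod_primeFactors_dvd d)))
  have hnum : (d.primeFactors.card : ℝ) ≤ 2 * Real.log d := by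
    have h2 : (d.primeFactors.card : ℝ) * (1 / 2) ≤ ∑ p ∈ d.primeFactors, Real.log p := by
      rw [← nsmul_eq_mul]
      refine card_nsmul_le_sum _ _ _ fun p hp => ?_
      have hp2 : (2 : ℝ) ≤ p := by exact_mod_cast (Nat.prime_of_mem_primeFactors hp).two_le
      linarith [Real.log_le_log two_pos hp2, Real.log_two_gt_d9]
    linarith
  have hsum : ∑ p ∈ S, Real.log p ≤ Real.log d + D := by
    rw [hS, hD]
    have := sum_union_inter (s₁ := d.primeFactors) (s₂ := badPrimes W)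
      (f := fun p : ℕ => Real.log p)
    linarith [sum_nonneg (s := d.primeFactors ∩ badPrimes W)
      fun p _ => Real.log_natCast_nonneg p]
  have hcard : (S.card : ℝ) ≤ (badPrimes W).card + 2 * Real.log d := by
    have : (S.card : ℝ) ≤ d.primeFactors.card + (badPrimes W).card := by
      rw [hS]
      exact_mod_cast card_union_le _ _
    linarith
  have hR : 0 ≤ √(N : ℝ) * Real.log N ^ 4 := by
    have := Real.log_natCast_nonneg N
    positivity
  have h2 : A * (2 + Real.log (degree W d) + ∑ p ∈ S, Real.log p) ≤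
      A * (5 + D) * (1 + Real.log d) := by
    rw [mul_assoc A]
    refine mul_le_mul_of_nonneg_left ?_ hA
    nlinarith
  nlinarith [mul_le_mul_of_nonneg_right h2 hR,
    show 0 ≤ A * (5 + D) * (1 + Real.log d) by positivity,
    mul_nonneg (Nat.cast_nonneg (α := ℝ) (badPrimes W).card) hld,
    mul_nonneg (mul_nonneg (by positivity : (0 : ℝ) ≤ (badPrimes W).card + 2)
      (by positivity : (0 : ℝ) ≤ 1 + Real.log d)) hR]

/-- `x / (2 log x) ≤ li x` from `8` on. -/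
theorem half_le_logInt {x : ℝ} (hx : 8 ≤ x) : x / (2 * Real.log x) ≤ logInt x := by
  have hl : 0 < Real.log x := Real.log_pos (by linarith)
  refine le_trans ?_ (intervalIntegral.integral_mono_on (f := fun _ => 1 / Real.log x)
    (by linarith) intervalIntegrable_const ?_ fun t ht => ?_)
  · rw [intervalIntegral.integral_const, smul_eq_mul, mul_one_div,
      div_le_div_iff₀ (by positivity) hl]
    nlinarith
  · refine (continuousOn_const.div (Real.continuousOn_log.mono fun t ht => ?_)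
      fun t ht => ?_).intervalIntegrable <;> rw [Set.uIcc_of_le (by linarith)] at ht
    · simp only [Set.mem_compl_iff, Set.mem_singleton_iff]
      linarith [ht.1]
    · exact (Real.log_pos (by linarith [ht.1])).ne'
  · exact one_div_le_one_div_of_le (Real.log_pos (by linarith [ht.1]))
      (Real.log_le_log (by linarith [ht.1]) ht.2)

/-- **`∑ 1 / n_d` converges** over all levels. -/
theorem summable_inv_degree (hΔ : W.Δ ≠ 0) (hGRH : AllFieldsRH) :
    Summable fun d : ℕ => 1 / (degree W d : ℝ) := by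
  obtain ⟨B, hB, h⟩ := exists_level_count hΔ hGRH
  refine Summable.of_norm_bounded_eventually_nat
    (Real.summable_nat_rpow.2 (show (-(5 / 4) : ℝ) < -1 by norm_num)) ?_
  filter_upwards [eventually_ge_atTop 3,
    tendsto_natCast_atTop_atTop.eventually
      ((isLittleO_log_rpow_rpow_atTop (6 : ℕ) (show (0 : ℝ) < 1 / 4 by norm_num)).bound
        (show (0 : ℝ) < 1 / (6 * (40 + 164 * B)) by positivity))] with d hd hlog
  haveI : NeZero d := ⟨by omega⟩
  obtain ⟨x, hx⟩ : ∃ x : ℝ, x = (d : ℝ) := ⟨_, rfl⟩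
  obtain ⟨L, hL⟩ : ∃ L : ℝ, L = Real.log x := ⟨_, rfl⟩
  have hx3 : 3 ≤ x := hx ▸ Nat.ofNat_le_cast.2 hd
  have hL1 : 1 ≤ L := by
    rw [hL]
    exact (Real.le_log_iff_exp_le (by linarith)).2 (Real.exp_one_lt_d9.le.trans (by linarith))
  have hN : 8 ≤ d ^ 3 := le_trans (by norm_num) (Nat.pow_le_pow_left hd 3)
  have h1 := (abs_le.1 (h d (by omega) (d ^ 3) (by omega))).1
  have h2 := card_level_le hΔ (show 0 < d by omega) (N := d ^ 3) (by omega)
  rw [show ((d ^ 3 : ℕ) : ℝ) = x ^ 3 by rw [hx]; push_cast; ring, ← hx] at h1 h2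
  rw [Real.log_pow, ← hL] at h1
  push_cast at h1
  obtain ⟨M, hM⟩ : ∃ M : ℝ, M = √(x ^ 3) := ⟨_, rfl⟩
  have hM1 : 1 ≤ M := hM ▸ Real.one_le_sqrt.2 (one_le_pow₀ (by linarith))
  rw [← hM] at h1 h2
  rw [show 40 * (x ^ 3 * M) / x ^ 3 = 40 * M by field_simp] at h2
  have hli : x ^ 3 / (6 * L) ≤ logInt (x ^ 3) := by
    refine le_trans (le_of_eq ?_) (half_le_logInt (le_trans (by norm_num : (8 : ℝ) ≤ 3 ^ 3)
      (pow_le_pow_left₀ (by norm_num) hx3 3)))
    rw [Real.log_pow, ← hL]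
    push_cast
    ring
  have hn : (0 : ℝ) < degree W d := Nat.cast_pos.2 (degree_eq W d ▸ Nat.card_pos)
  have hT : (1 + L) * (M * (3 * L) ^ 4 + 1) ≤ 164 * (M * L ^ 5) := by
    have : 1 ≤ M * L ^ 4 := one_le_mul_of_one_le_of_one_le hM1 (one_le_pow₀ hL1)
    calc (1 + L) * (M * (3 * L) ^ 4 + 1) ≤ (2 * L) * (82 * (M * L ^ 4)) :=
          mul_le_mul (by linarith) (by linarith) (by positivity) (by linarith)
      _ = _ := by ring
  have h3 : x ^ 3 / (6 * L) / degree W d ≤ (40 + 164 * B) * (M * L ^ 5) := by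
    refine (div_le_div_of_nonneg_right hli hn.le).trans ?_
    have h4 := mul_le_mul_of_nonneg_left hT hB
    have h5 : M ≤ M * L ^ 5 := le_mul_of_one_le_right (by linarith) (one_le_pow₀ hL1)
    linarith
  rw [div_div, div_le_iff₀ (by positivity)] at h3
  simp only [Real.rpow_natCast, Real.norm_eq_abs] at hlog
  rw [← hx, ← hL, abs_of_nonneg (by positivity : (0 : ℝ) ≤ L ^ 6),
    abs_of_nonneg (Real.rpow_nonneg (by linarith) _), div_mul_eq_mul_div, one_mul,
    le_div_iff₀ (by positivity)] at hlog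
  have hx0 : 0 < x := by linarith
  have hkey : x ^ 3 ≤ M * x ^ (1 / 4 : ℝ) * degree W d := by
    refine h3.trans ?_
    rw [show (40 + 164 * B) * (M * L ^ 5) * (6 * L * (degree W d : ℝ)) =
      M * (L ^ 6 * (6 * (40 + 164 * B))) * degree W d by ring]
    exact mul_le_mul_of_nonneg_right (mul_le_mul_of_nonneg_left hlog (by linarith)) hn.le
  rw [Real.norm_eq_abs, abs_of_nonneg (by positivity), ← hx, Real.rpow_neg hx0.le,
    div_le_iff₀ hn, ← mul_le_mul_iff_right₀ (show 0 < x ^ 3 by positivity), mul_one]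
  refine hkey.trans (le_of_eq ?_)
  have e : x ^ 3 = M * x ^ (1 / 4 : ℝ) * x ^ (5 / 4 : ℝ) := by
    rw [hM, Real.sqrt_eq_rpow, ← Real.rpow_natCast x 3, ← Real.rpow_mul hx0.le,
      ← Real.rpow_add hx0, ← Real.rpow_add hx0]
    norm_num
  rw [e]
  field_simp

end FA.NearlyCyclic

end
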