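import Fermat.Agent.NearlyCyclic.Count
import Mathlib.NumberTheory.Chebyshev

/-!
# A large first invariant is rare

Primes at which some level `d > D` is full: up to `N ^ (2/5)` the Riemann hypothesis gives
`li N ∑_{d > D} 1 / n_d + O (N ^ (9/10) log ^ 5 N)`, beyond it the trivial count gives
`O (N ^ (7/10))`. So their share of the primes tends to zero with `D`.
-/

set_option autoImplicit false
set_option linter.style.haveILetI false

noncomputable section

open WeierstrassCurve FA.Frob Finset Filter FA.CyclicRed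
open FA.ArtinHooley (logInt)
open FA.ReducedGroups (FullAt)
open scoped WeierstrassCurve.Affine Classical Topology

namespace FA.NearlyCyclic

variable (W : WeierstrassCurve ℤ)

/-- The good `p ≤ N` with some full level above `D`. -/
def bigSet (D N : ℕ) : Finset ℕ :=
  (Icc 1 N).filter fun p => p.Prime ∧ (p ∉ badPrimes W ∧ ∃ d : ℕ, D < d ∧ FullAt W d p)

theorem tendsto_error_big (K : ℝ) :
    Tendsto (fun N : ℕ => K * ((N : ℝ) ^ (9 / 10 : ℝ) * Real.log N ^ 5) * (Real.log N / N))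
      atTop (𝓝 0) := by
  have h := ((isLittleO_log_rpow_rpow_atTop (6 : ℕ) (show (0 : ℝ) < 1 / 10 by norm_num)
    ).tendsto_div_nhds_zero.comp tendsto_natCast_atTop_atTop).const_mul K
  rw [mul_zero] at h
  refine h.congr' ?_
  filter_upwards [eventually_ge_atTop 1] with N hN
  have hN0 : (0 : ℝ) < N := Nat.cast_pos.2 hN
  simp only [Function.comp_apply, Real.rpow_natCast]
  have e : (N : ℝ) ^ (9 / 10 : ℝ) * (N : ℝ) ^ (1 / 10 : ℝ) = N := by
    rw [← Real.rpow_add hN0]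
    norm_num
  field_simp
  linear_combination (-(K * Real.log (N : ℝ) ^ 6)) * e

variable {W}

/-- A big prime is counted at its level. -/
theorem card_bigSet_le (hΔ : W.Δ ≠ 0) (D N : ℕ) :
    ((bigSet W D N).card : ℝ) ≤ ∑ d ∈ Ioc D N, ((fullCount W d N).card : ℝ) := by
  rw [← Nat.cast_sum, Nat.cast_le]
  refine le_trans (card_le_card fun p hp => ?_) card_biUnion_le
  rw [bigSet, mem_filter] at hp
  obtain ⟨hpI, hpp, hbad, d, hd, hfull⟩ := hp
  haveI := Fact.mk hpp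
  obtain ⟨h3, hgood⟩ := good_of_not_mem hΔ hpp hbad
  have h1 := Nat.le_of_dvd (by omega) (level_facts W h3 hgood (by omega) hfull).1
  have h2 := (mem_Icc.1 hpI).2
  exact mem_biUnion.2 ⟨d, mem_Ioc.2 ⟨hd, by omega⟩, mem_filter.2 ⟨hpI, hpp, hbad, hfull⟩⟩

/-- The cut at `u`: levels `(D, u]` and levels above `u`. -/
theorem sum_levels_le (hΔ : W.Δ ≠ 0) {N u : ℕ} (hN : 1 ≤ N) (hu : 1 ≤ u) (D : ℕ) :
    ∑ d ∈ Ioc D N, ((fullCount W d N).card : ℝ) ≤
      (∑ d ∈ Ioc D u, ((fullCount W d N).card : ℝ)) + 40 * (N * √(N : ℝ)) / (u : ℝ) ^ 2 := by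
  refine (sum_le_sum_of_subset_of_nonneg (t := Ioc D u ∪ Ioc u N) (fun d hd => ?_)
    fun _ _ _ => Nat.cast_nonneg _).trans (le_of_eq_of_le (sum_union (disjoint_left.2
      fun d h1 h2 => (mem_Ioc.1 h2).1.not_ge (mem_Ioc.1 h1).2)) ?_)
  · rw [mem_Ioc] at hd
    rw [mem_union, mem_Ioc, mem_Ioc]
    omega
  refine add_le_add le_rfl ((sum_le_sum fun d hd => card_level_le hΔ
    (Nat.zero_lt_of_lt (mem_Ioc.1 hd).1) hN).trans ?_)
  rw [sum_congr rfl fun (d : ℕ) _ => div_eq_mul_one_div (40 * ((N : ℝ) * √(N : ℝ))) ((d : ℝ) ^ 3),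
    ← mul_sum, div_eq_mul_one_div (40 * ((N : ℝ) * √(N : ℝ))) ((u : ℝ) ^ 2)]
  exact mul_le_mul_of_nonneg_left (sum_inv_cube_le hu N) (by positivity)

variable [(ratCurve W).IsElliptic]

/-- **The levels above some `D` count at most `ε N / log N` in all.** -/
theorem exists_tail_sum_le (hΔ : W.Δ ≠ 0) (hGRH : AllFieldsRH) {ε : ℝ} (hε : 0 < ε) :
    ∃ D : ℕ, ∀ᶠ N : ℕ in atTop,
      (∑ d ∈ Ioc D N, ((fullCount W d N).card : ℝ)) * Real.log N / N ≤ ε := by
  obtain ⟨B, hB, hcount⟩ := exists_level_count hΔ hGRH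
  obtain ⟨s, hs⟩ := summable_iff_vanishing.1 (summable_inv_degree hΔ hGRH)
    (Metric.ball 0 (ε / 4)) (Metric.ball_mem_nhds _ (by linarith))
  refine ⟨s.sup id, ?_⟩
  filter_upwards [eventually_ge_atTop 2,
    (Real.tendsto_log_atTop.comp tendsto_natCast_atTop_atTop).eventually_ge_atTop 1,
    tendsto_logInt_nat.eventually (eventually_le_nhds (show (1 : ℝ) < 2 by norm_num)),
    (tendsto_error_big (4 * B + 160)).eventually
      (eventually_le_nhds (show (0 : ℝ) < ε / 2 by linarith))] with N hN hL hI hE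
  simp only [Function.comp_apply] at hL
  obtain ⟨u, hu⟩ : ∃ u, u = ⌊(N : ℝ) ^ (2 / 5 : ℝ)⌋₊ := ⟨_, rfl⟩
  have hN0 : (0 : ℝ) < N := Nat.cast_pos.2 (by omega)
  have hN1 : (1 : ℝ) ≤ N := Nat.one_le_cast.2 (by omega)
  have hc1 : 1 ≤ (N : ℝ) ^ (2 / 5 : ℝ) := Real.one_le_rpow hN1 (by norm_num)
  have hu1 : 1 ≤ u := hu ▸ Nat.le_floor (by simpa using hc1)
  have hule : (u : ℝ) ≤ (N : ℝ) ^ (2 / 5 : ℝ) := hu ▸ Nat.floor_le (by positivity)
  have huge : (N : ℝ) ^ (2 / 5 : ℝ) ≤ 2 * u := by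
    have := Nat.lt_floor_add_one ((N : ℝ) ^ (2 / 5 : ℝ))
    rw [← hu] at this
    linarith [(Nat.one_le_cast.2 hu1 : (1 : ℝ) ≤ u)]
  obtain ⟨E, hEdef⟩ : ∃ E, E = (N : ℝ) ^ (9 / 10 : ℝ) * Real.log N ^ 5 := ⟨_, rfl⟩
  have h0 := sum_levels_le hΔ (N := N) (by omega) hu1 (s.sup id)
  have h5 : 1 ≤ Real.log (N : ℝ) ^ 5 := one_le_pow₀ hL
  have hlarge : 40 * (N * √(N : ℝ)) / (u : ℝ) ^ 2 ≤ 160 * E := by
    rw [div_le_iff₀ (by positivity), hEdef]
    calc 40 * ((N : ℝ) * √(N : ℝ))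
        ≤ 40 * ((N : ℝ) ^ (9 / 10 : ℝ) * ((N : ℝ) ^ (2 / 5 : ℝ)) ^ 2) := by
          refine mul_le_mul_of_nonneg_left ?_ (by norm_num)
          rw [Real.sqrt_eq_rpow, ← Real.rpow_natCast ((N : ℝ) ^ (2 / 5 : ℝ)) 2,
            ← Real.rpow_mul hN0.le, ← Real.rpow_add hN0]
          nth_rw 1 [← Real.rpow_one (N : ℝ)]
          rw [← Real.rpow_add hN0]
          exact Real.rpow_le_rpow_of_exponent_le hN1 (by norm_num)
      _ ≤ 40 * ((N : ℝ) ^ (9 / 10 : ℝ) * Real.log N ^ 5 * (2 * u) ^ 2) := by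
          gcongr
          exact le_mul_of_one_le_right (by positivity) h5
      _ = _ := by ring
  have htail : ∑ d ∈ Ioc (s.sup id) u, 1 / (degree W d : ℝ) ≤ ε / 4 := by
    have h1 := hs (Ioc (s.sup id) u) (Finset.disjoint_left.2 fun d hd hds =>
      (mem_Ioc.1 hd).1.not_ge (le_sup (f := id) hds))
    rw [Metric.mem_ball, dist_zero_right, Real.norm_eq_abs] at h1
    exact (le_abs_self _).trans h1.le
  have hsmall : ∑ d ∈ Ioc (s.sup id) u, ((fullCount W d N).card : ℝ) ≤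
      logInt N * (ε / 4) + 4 * B * E := by
    refine (sum_le_sum (g := fun d => logInt N * (1 / (degree W d : ℝ)) +
      B * (1 + Real.log N) * (√(N : ℝ) * Real.log N ^ 4 + 1)) fun d hd => ?_).trans ?_
    · rw [mem_Ioc] at hd
      have h1 := (abs_le.1 (hcount d (by omega) N hN)).2
      have hdN : (d : ℝ) ≤ N := ((Nat.cast_le.2 hd.2).trans hule).trans
        ((Real.rpow_le_rpow_of_exponent_le hN1
          (show (2 / 5 : ℝ) ≤ 1 by norm_num)).trans_eq (Real.rpow_one _))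
      have h2 : B * (1 + Real.log d) * (√(N : ℝ) * Real.log N ^ 4 + 1) ≤
          B * (1 + Real.log N) * (√(N : ℝ) * Real.log N ^ 4 + 1) := by
        gcongr
        exact_mod_cast (show 0 < d by omega)
      rw [mul_one_div]
      linarith
    · rw [sum_add_distrib, ← mul_sum, sum_const, nsmul_eq_mul]
      refine add_le_add (mul_le_mul_of_nonneg_left htail
        (FA.ArtinHooley.logInt_nonneg (by exact_mod_cast hN))) ?_
      have hk : ((Ioc (s.sup id) u).card : ℝ) ≤ (N : ℝ) ^ (2 / 5 : ℝ) :=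
        (Nat.cast_le.2 (by rw [Nat.card_Ioc]; omega : (Ioc (s.sup id) u).card ≤ u)).trans hule
      refine (mul_le_mul_of_nonneg_right hk (by positivity)).trans ?_
      have e : (N : ℝ) ^ (2 / 5 : ℝ) * √(N : ℝ) = (N : ℝ) ^ (9 / 10 : ℝ) := by
        rw [Real.sqrt_eq_rpow, ← Real.rpow_add hN0]
        norm_num
      have hsN : 1 ≤ √(N : ℝ) * Real.log N ^ 4 :=
        one_le_mul_of_one_le_of_one_le (Real.one_le_sqrt.2 hN1) (one_le_pow₀ hL)
      rw [hEdef, ← e]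
      calc (N : ℝ) ^ (2 / 5 : ℝ) * (B * (1 + Real.log N) * (√(N : ℝ) * Real.log N ^ 4 + 1))
          ≤ (N : ℝ) ^ (2 / 5 : ℝ) * (B * (2 * Real.log N) * (2 * (√(N : ℝ) * Real.log N ^ 4))) := by
            gcongr
            · linarith
            · linarith
        _ = _ := by ring
  rw [← hEdef] at hE
  have h1 : (∑ d ∈ Ioc (s.sup id) N, ((fullCount W d N).card : ℝ)) * (Real.log N / N) ≤
      (logInt N * (ε / 4) + (4 * B + 160) * E) * (Real.log N / N) :=
    mul_le_mul_of_nonneg_right (by linarith) (by positivity)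
  rw [mul_div_assoc]
  rw [mul_div_assoc] at hI
  nlinarith [mul_le_mul_of_nonneg_right hI (show 0 ≤ ε / 4 by linarith)]

/-- **For every `ε` a `D` leaves out at most `ε N / log N` primes.** -/
theorem exists_bigSet_le (hΔ : W.Δ ≠ 0) (hGRH : AllFieldsRH) {ε : ℝ} (hε : 0 < ε) :
    ∃ D : ℕ, ∀ᶠ N : ℕ in atTop, ((bigSet W D N).card : ℝ) * Real.log N / N ≤ ε := by
  obtain ⟨D, hD⟩ := exists_tail_sum_le hΔ hGRH hε
  exact ⟨D, hD.mono fun N hN => le_trans (div_le_div_of_nonneg_right (mul_le_mul_of_nonneg_right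
    (card_bigSet_le hΔ D N) (Real.log_natCast_nonneg N)) (Nat.cast_nonneg N)) hN⟩

end FA.NearlyCyclic

end
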